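/-
S14, package A0 (dictionary), backup seat helper62: lifting of decomposition and inertia
elements from a finite level `L ⊆ ℚ̄` to `Gal(ℚ̄/ℚ)` (parts 2 and 3 of the skeleton).

`H = Gal(ℚ̄/L)` is a profinite group acting on the ring `𝓑` of all algebraic integers with
invariants `𝓑 ∩ L`; Mathlib's profinite versions of "transitivity on primes" and "surjectivity
onto the residual automorphisms" then give the two statements.
-/
import Mathlib
import Fermat.Agent.S54.H94.Frobenius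

set_option autoImplicit false

open scoped Pointwise

noncomputable section

namespace Fermat.Agent.S14.H62

local notation "Qb" => AlgebraicClosure ℚ
local notation "Γ" => (AlgebraicClosure ℚ ≃ₐ[ℚ] AlgebraicClosure ℚ)
local notation "𝓑" => integralClosure ℤ (AlgebraicClosure ℚ)

open Fermat.Agent.S54.H94 in
attribute [local instance] topB discreteTopB

/-- The algebraic integers lying in `L`, as a subalgebra of `𝓑`. -/
def intSub (L : IntermediateField ℚ Qb) : Subalgebra ℤ 𝓑 where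
  carrier := {b | (b : Qb) ∈ L}
  mul_mem' := fun ha hb => L.mul_mem ha hb
  add_mem' := fun ha hb => L.add_mem ha hb
  algebraMap_mem' := fun n => by
    show ((algebraMap ℤ 𝓑 n : 𝓑) : Qb) ∈ L
    have : ((algebraMap ℤ 𝓑 n : 𝓑) : Qb) = ((n : ℚ) : Qb) := by simp
    rw [this]
    exact L.algebraMap_mem _

theorem mem_intSub_iff (L : IntermediateField ℚ Qb) (b : 𝓑) : b ∈ intSub L ↔ (b : Qb) ∈ L :=
  Iff.rfl

theorem smul_eq_of_mem (L : IntermediateField ℚ Qb) (h : L.fixingSubgroup) (b : 𝓑)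
    (hb : (b : Qb) ∈ L) : h • b = b := by
  apply Subtype.ext
  show (h : Γ) (b : Qb) = (b : Qb)
  exact (IntermediateField.mem_fixingSubgroup_iff L (h : Γ)).mp h.2 _ hb

instance smulCommClass_intSub (L : IntermediateField ℚ Qb) :
    SMulCommClass L.fixingSubgroup (intSub L) 𝓑 where
  smul_comm h a b := by
    show h • ((a : 𝓑) * b) = (a : 𝓑) * h • b
    rw [smul_mul', smul_eq_of_mem L h (a : 𝓑) a.2]

instance isInvariant_intSub (L : IntermediateField ℚ Qb) :
    Algebra.IsInvariant (intSub L) 𝓑 L.fixingSubgroup where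
  isInvariant b hb := by
    have h1 : (b : Qb) ∈ IntermediateField.fixedField L.fixingSubgroup := by
      rw [IntermediateField.mem_fixedField_iff]
      intro f hf
      exact congrArg Subtype.val (hb ⟨f, hf⟩)
    rw [InfiniteGalois.fixedField_fixingSubgroup] at h1
    exact ⟨⟨b, h1⟩, rfl⟩

theorem compactSpace_fixingSubgroup (L : IntermediateField ℚ Qb) :
    CompactSpace L.fixingSubgroup :=
  isCompact_iff_compactSpace.mp (InfiniteGalois.fixingSubgroup_isClosed L).isCompact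

/-- **A0, part 2**: lifting decomposition elements from a finite level `L` to `ℚ̄`. -/
theorem exists_lift_decomposition (L : IntermediateField ℚ Qb)
    [FiniteDimensional ℚ L] (Q : Ideal (integralClosure ℤ Qb)) [Q.IsPrime] (σ₀ : Γ)
    (hσ₀ : ∀ b : integralClosure ℤ Qb, (b : Qb) ∈ L → (σ₀ • b ∈ Q ↔ b ∈ Q)) :
    ∃ σ : Γ, (∀ x ∈ L, σ x = σ₀ x) ∧ ∀ b : integralClosure ℤ Qb, σ • b ∈ Q ↔ b ∈ Q := by
  have := compactSpace_fixingSubgroup L
  have hPQ : (σ₀⁻¹ • Q).under (intSub L) = Q.under (intSub L) := by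
    ext a
    rw [Ideal.under_def, Ideal.under_def, Ideal.mem_comap, Ideal.mem_comap,
      Ideal.mem_pointwise_smul_iff_inv_smul_mem, inv_inv]
    exact hσ₀ _ a.2
  obtain ⟨g, hg⟩ := Algebra.IsInvariant.exists_smul_of_under_eq_of_profinite
    (A := intSub L) (G := L.fixingSubgroup) (σ₀⁻¹ • Q) Q hPQ
  refine ⟨σ₀ * (g : Γ)⁻¹, fun x hx => ?_, fun b => ?_⟩
  · have hgx : (g : Γ)⁻¹ x = x :=
      (IntermediateField.mem_fixingSubgroup_iff L _).mp (L.fixingSubgroup.inv_mem g.2) x hx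
    rw [AlgEquiv.mul_apply, hgx]
  · have h1 : b ∈ Q ↔ σ₀ • ((g : Γ)⁻¹ • b) ∈ Q := by
      conv_lhs => rw [hg]
      rw [Ideal.mem_pointwise_smul_iff_inv_smul_mem, Ideal.mem_pointwise_smul_iff_inv_smul_mem,
        inv_inv]
      rfl
    rw [mul_smul]
    exact h1.symm

/-- **A0, part 3**: lifting inertia elements from a finite level `L` to `ℚ̄`. -/
theorem exists_lift_inertia (L : IntermediateField ℚ Qb)
    [FiniteDimensional ℚ L] (Q : Ideal (integralClosure ℤ Qb)) [Q.IsPrime] (σ₀ : Γ)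
    (hσ₀ : ∀ b : integralClosure ℤ Qb, (b : Qb) ∈ L → σ₀ • b - b ∈ Q) :
    ∃ σ : Γ, (∀ x ∈ L, σ x = σ₀ x) ∧ ∀ b : integralClosure ℤ Qb, σ • b - b ∈ Q := by
  have := compactSpace_fixingSubgroup L
  -- step 1: a lift stabilising `Q`
  have hdec : ∀ b : integralClosure ℤ Qb, (b : Qb) ∈ L → (σ₀ • b ∈ Q ↔ b ∈ Q) := by
    intro b hb
    constructor
    · intro h
      have := Q.sub_mem h (hσ₀ b hb)
      simpa using this
    · intro h
      have := Q.add_mem (hσ₀ b hb) h
      simpa using this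
  obtain ⟨σ₁, h1L, h1Q⟩ := exists_lift_decomposition L Q σ₀ hdec
  have hstab : σ₁ ∈ MulAction.stabilizer Γ Q := by
    rw [MulAction.mem_stabilizer_iff]
    ext b
    rw [Ideal.mem_pointwise_smul_iff_inv_smul_mem]
    have := h1Q (σ₁⁻¹ • b)
    rw [smul_inv_smul] at this
    exact this.symm
  -- step 2: the induced automorphism of `𝓑 ⧸ Q` is linear over `(𝓑 ∩ L) ⧸ (Q ∩ L)`
  let τ := Ideal.Quotient.stabilizerHom Q (Q.under ℤ) Γ ⟨σ₁, hstab⟩
  have hτ : ∀ b : integralClosure ℤ Qb,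
      τ (Ideal.Quotient.mk Q b) = Ideal.Quotient.mk Q (σ₁ • b) := fun b => rfl
  have hσ₁a : ∀ a : intSub L, σ₁ • (a : integralClosure ℤ Qb) - a ∈ Q := by
    intro a
    have e : σ₁ • (a : integralClosure ℤ Qb) = σ₀ • (a : integralClosure ℤ Qb) :=
      Subtype.ext (h1L _ a.2)
    rw [e]
    exact hσ₀ _ a.2
  let τ' : ((integralClosure ℤ Qb) ⧸ Q) ≃ₐ[(intSub L) ⧸ Q.under (intSub L)]
      ((integralClosure ℤ Qb) ⧸ Q) :=
    AlgEquiv.ofRingEquiv (f := τ.toRingEquiv) (by
      intro x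
      obtain ⟨a, rfl⟩ := Ideal.Quotient.mk_surjective x
      show τ (Ideal.Quotient.mk Q (a : integralClosure ℤ Qb)) =
        Ideal.Quotient.mk Q (a : integralClosure ℤ Qb)
      rw [hτ]
      exact Ideal.Quotient.eq.mpr (hσ₁a a))
  -- step 3: realise it by an element of the stabiliser of `Q` in `Gal(ℚ̄/L)`
  obtain ⟨h, hh⟩ := Ideal.Quotient.stabilizerHom_surjective_of_profinite
    (G := L.fixingSubgroup) (Q.under (intSub L)) Q τ'
  have key : ∀ c : integralClosure ℤ Qb,
      Ideal.Quotient.mk Q ((h : L.fixingSubgroup) • c) = Ideal.Quotient.mk Q (σ₁ • c) := by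
    intro c
    have := congrArg (fun f => f (Ideal.Quotient.mk Q c)) hh
    exact this
  refine ⟨σ₁ * ((h : L.fixingSubgroup) : Γ)⁻¹, fun x hx => ?_, fun b => ?_⟩
  · have hgx : ((h : L.fixingSubgroup) : Γ)⁻¹ x = x :=
      (IntermediateField.mem_fixingSubgroup_iff L _).mp
        (L.fixingSubgroup.inv_mem (h : L.fixingSubgroup).2) x hx
    rw [AlgEquiv.mul_apply, hgx, h1L x hx]
  · have := key (((h : L.fixingSubgroup) : Γ)⁻¹ • b)
    have e : (h : L.fixingSubgroup) • (((h : L.fixingSubgroup) : Γ)⁻¹ • b) = b :=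
      smul_inv_smul ((h : L.fixingSubgroup) : Γ) b
    rw [e] at this
    rw [mul_smul]
    exact Ideal.Quotient.eq.mp this.symm

end Fermat.Agent.S14.H62

end
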